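import Fermat.Agent.CFT.Local.Herbrand
import Fermat.Agent.CFT.Local.NormalLattice

/-!
# The local norm index of a cyclic group

The unit group is compact, so deep units have finite index in it; for a finite cyclic `H` this
gives Herbrand quotient `1` on units and `[(Eˣ)^H : N Eˣ] = |H|`.
-/

set_option autoImplicit false
set_option synthInstance.maxHeartbeats 200000

noncomputable section

namespace Fermat.Agent.CFT.Local

open Module Filter Topology

variable {q : ℕ} [Fact q.Prime] {E : IntermediateField ℚ_[q] (PadicAlgCl q)}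
  [FiniteDimensional ℚ_[q] E]

/-- Deep units have finite index in the units. -/
theorem relIndex_deepUnits_ne_zero {ι : Type*} [Fintype ι] {b : Basis ι ℚ_[q] E}
    (hb : GoodBasis b) (k : ℕ) : (deepUnits hb k).relIndex (unitGroup E) ≠ 0 := by
  classical
  set S : Set E := Metric.sphere 0 1 with hS
  have hSmem : ∀ x, x ∈ S ↔ ‖x‖ = 1 := fun x => by rw [hS, mem_sphere_zero_iff_norm]
  let nb : E → Set E := fun x => {y | y / x - 1 ∈ lat b k}
  have hnb : ∀ x ∈ S, nb x ∈ 𝓝 x := fun x hx => by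
    have hx0 : x ≠ 0 := fun h0 => by simp [hSmem, h0] at hx
    have hc : ContinuousAt (fun y : E => y / x - 1) x :=
      ((continuous_id.div_const x).sub continuous_const).continuousAt
    exact hc.preimage_mem_nhds (by
      show (lat b k : Set E) ∈ 𝓝 (x / x - 1)
      rw [div_self hx0, sub_self]; exact lat_mem_nhds_zero b k)
  obtain ⟨t, ht, hcov⟩ := (isCompact_sphere (0 : E) 1).elim_nhds_subcover nb hnb
  have hne : ∀ x : t, (x : E) ≠ 0 := fun x h0 => by
    have := (hSmem _).mp (ht x x.2)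
    rw [h0, norm_zero] at this
    exact zero_ne_one this
  let rep : t → unitGroup E := fun x =>
    ⟨Units.mk0 (x : E) (hne x), (mem_unitGroup E).mpr ((hSmem _).mp (ht x x.2))⟩
  have hsurj : Function.Surjective
      (fun x : t => (QuotientGroup.mk (rep x) : unitGroup E ⧸ (deepUnits hb k).subgroupOf (unitGroup E))) := by
    intro c
    obtain ⟨u, rfl⟩ := QuotientGroup.mk_surjective c
    have hu := hcov ((hSmem _).mpr ((mem_unitGroup E).mp u.2))
    simp only [Set.mem_iUnion] at hu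
    obtain ⟨x, hx, hxu⟩ := hu
    refine ⟨⟨x, hx⟩, QuotientGroup.eq.mpr ?_⟩
    rw [Subgroup.mem_subgroupOf]
    show (Units.mk0 x (hne ⟨x, hx⟩))⁻¹ * (u : Eˣ) ∈ deepUnits hb k
    rw [mem_deepUnits, Units.val_mul, Units.val_inv_eq_inv_val, Units.val_mk0, inv_mul_eq_div]
    exact hxu
  have := Finite.of_surjective _ hsurj
  exact Subgroup.index_ne_zero_of_finite

/-- The invariant units of `H`. -/
def fixedUnits (H : Subgroup (E ≃ₐ[ℚ_[q]] E)) : Subgroup Eˣ where
  carrier := {x | ∀ h : H, (h : E ≃ₐ[ℚ_[q]] E) • x = x}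
  one_mem' h := smul_one _
  mul_mem' {a b} ha hb h := by rw [smul_mul', ha h, hb h]
  inv_mem' {a} ha h := by rw [smul_inv', ha h]

/-- `x ↦ σ x / x`. -/
def augOne (σ : E ≃ₐ[ℚ_[q]] E) : Eˣ →* Eˣ where
  toFun x := σ • x / x
  map_one' := by simp
  map_mul' x y := by rw [smul_mul', div_mul_div_comm]

section Cyclic

variable {H : Subgroup (E ≃ₐ[ℚ_[q]] E)} {σ : E ≃ₐ[ℚ_[q]] E}

omit [FiniteDimensional ℚ_[q] ↥E] in
theorem fixedUnits_eq_ker (hσ : Subgroup.zpowers σ = H) : fixedUnits H = (augOne σ).ker := by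
  ext x
  rw [MonoidHom.mem_ker, show augOne σ x = σ • x / x from rfl, div_eq_one]
  refine ⟨fun h => h ⟨σ, hσ ▸ Subgroup.mem_zpowers σ⟩, fun h => ?_⟩
  rintro ⟨g, hg⟩
  have : Subgroup.zpowers σ ≤ MulAction.stabilizer (E ≃ₐ[ℚ_[q]] E) x :=
    Subgroup.zpowers_le.mpr h
  exact this (hσ.symm ▸ hg)

theorem smul_div_mem_map_augOne (hσ : Subgroup.zpowers σ = H) (S : Subgroup Eˣ)
    (hS : ∀ x ∈ S, σ • x ∈ S) (h : H) {b : Eˣ} (hb : b ∈ S) :
    (h : E ≃ₐ[ℚ_[q]] E) • b / b ∈ S.map (augOne σ) := by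
  have hσfin : IsOfFinOrder σ := isOfFinOrder_of_finite σ
  obtain ⟨n, hn⟩ := hσfin.mem_powers_iff_mem_zpowers.mpr
    (show (h : E ≃ₐ[ℚ_[q]] E) ∈ Subgroup.zpowers σ by rw [hσ]; exact h.2)
  rw [← hn]
  clear hn
  show σ ^ n • b / b ∈ _
  induction n generalizing b with
  | zero => rw [pow_zero, one_smul, div_self']; exact one_mem _
  | succ n ih =>
    rw [pow_succ, mul_smul, ← div_mul_div_cancel (σ ^ n • σ • b) (σ • b) b]
    exact mul_mem (ih (hS b hb)) ⟨b, hb, rfl⟩

omit [FiniteDimensional ℚ_[q] ↥E] in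
theorem augOne_normHom [Fintype H] (hσ : Subgroup.zpowers σ = H) (x : Eˣ) :
    augOne σ (NormalLattice.normHom H x) = 1 :=
  div_eq_one.mpr (NormalLattice.smul_normHom H ⟨σ, hσ ▸ Subgroup.mem_zpowers σ⟩ x)

omit [FiniteDimensional ℚ_[q] ↥E] in
theorem normHom_augOne [Fintype H] (hσ : Subgroup.zpowers σ = H) (x : Eˣ) :
    NormalLattice.normHom H (augOne σ x) = 1 := by
  rw [show augOne σ x = σ • x / x from rfl, map_div,
    NormalLattice.normHom_smul H ⟨σ, hσ ▸ Subgroup.mem_zpowers σ⟩ x, div_self']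

theorem augOne_mem_unitGroup (x : Eˣ) : augOne σ x ∈ unitGroup E := by
  rw [← ord_eq_one_iff, show augOne σ x = σ • x / x from rfl, map_div, ord_smul_unit, div_self']

/-- Hilbert 90 for a cyclic group. -/
theorem exists_augOne_eq [Fintype H] (hσ : Subgroup.zpowers σ = H) {x : Eˣ}
    (hx : NormalLattice.normHom H x = 1) : ∃ y : Eˣ, augOne σ y = x := by
  set n := orderOf σ with hn
  have hσfin : IsOfFinOrder σ := isOfFinOrder_of_finite σ
  let e : Fin n ≃ H := (finEquivZPowers hσfin).trans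
    (Equiv.subtypeEquivRight fun g => by rw [hσ])
  have he : ∀ i : Fin n, (e i : E ≃ₐ[ℚ_[q]] E) = σ ^ (i : ℕ) := fun i => rfl
  let c : ℕ → Eˣ := fun i => ∏ j ∈ Finset.range i, σ ^ j • x
  have hcn : c n = 1 := by
    rw [← hx]
    show ∏ j ∈ Finset.range n, σ ^ j • x = ∏ h : H, (h : E ≃ₐ[ℚ_[q]] E) • x
    rw [← Fin.prod_univ_eq_prod_range, ← e.prod_comp]
    exact Finset.prod_congr rfl fun i _ => by rw [he]
  have hcs : ∀ i, (c (i + 1) : E) = (x : E) * σ (c i : E) := fun i => by
    have : c (i + 1) = x * σ • c i := by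
      show ∏ j ∈ Finset.range (i + 1), σ ^ j • x = x * σ • (∏ j ∈ Finset.range i, σ ^ j • x)
      rw [Finset.prod_range_succ', Finset.smul_prod', pow_zero, one_smul, mul_comm]
      simp only [smul_smul, pow_succ']
    rw [this, Units.val_mul]
    rfl
  obtain ⟨z, hz⟩ : ∃ z : E, ∑ i ∈ Finset.range n, (c i : E) * (σ ^ i) z ≠ 0 := by
    by_contra hall
    simp only [not_exists, not_not] at hall
    have hli := (linearIndependent_monoidHom E E).comp
      (fun i : Fin n => ((σ ^ (i : ℕ)).toAlgHom.toRingHom.toMonoidHom))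
      (fun i j hij => e.injective (Subtype.ext (by
        rw [he, he]; exact AlgEquiv.ext fun z => DFunLike.congr_fun hij z)))
    have := Fintype.linearIndependent_iff.mp hli (fun i => (c i : E)) (by
      funext z
      simp only [Finset.sum_apply, Pi.smul_apply, smul_eq_mul, Pi.zero_apply]
      exact (Fin.sum_univ_eq_sum_range (fun i => (c i : E) * (σ ^ i) z) n).trans (hall z))
      ⟨0, orderOf_pos_iff.mpr hσfin⟩
    exact (c 0).ne_zero this
  set β := ∑ i ∈ Finset.range n, (c i : E) * (σ ^ i) z with hβ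
  have hkey : (x : E) * σ β = β := by
    rw [hβ, map_sum, Finset.mul_sum]
    have h1 : ∀ i, (x : E) * σ ((c i : E) * (σ ^ i) z) = (c (i + 1) : E) * (σ ^ (i + 1)) z :=
      fun i => by
        rw [map_mul, ← mul_assoc, hcs, pow_succ' σ i]
        rfl
    simp only [h1]
    have h2 := Finset.sum_range_succ' (fun i => (c i : E) * (σ ^ i) z) n
    rw [Finset.sum_range_succ, hcn] at h2
    have h0 : (c 0 : E) * (σ ^ 0) z = (1 : Eˣ) * (σ ^ n) z := by
      rw [pow_orderOf_eq_one]
      simp [c]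
    linear_combination -h2 - h0
  refine ⟨(Units.mk0 β hz)⁻¹, ?_⟩
  rw [show augOne σ (Units.mk0 β hz)⁻¹ = σ • (Units.mk0 β hz)⁻¹ / (Units.mk0 β hz)⁻¹ from rfl,
    smul_inv', inv_div_inv, div_eq_iff_eq_mul]
  exact Units.ext hkey.symm

/-- The Herbrand quotient of the unit group is `1`. -/
theorem unit_herbrand [Normal ℚ_[q] E] [Fintype H] (hσ : Subgroup.zpowers σ = H) :
    ((unitGroup E).map (NormalLattice.normHom H)).relIndex (unitGroup E ⊓ fixedUnits H) =
      ((unitGroup E).map (augOne σ)).relIndex (unitGroup E ⊓ (NormalLattice.normHom H).ker) ∧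
    ((unitGroup E).map (NormalLattice.normHom H)).relIndex (unitGroup E ⊓ fixedUnits H) ≠ 0 := by
  obtain ⟨Λ⟩ := exists_normalLattice (E := E)
  rw [fixedUnits_eq_ker hσ]
  refine relIndex_map_inf_ker_eq (unitGroup E) (augOne σ) (NormalLattice.normHom H) ?_ ?_
    (fun x _ => augOne_normHom hσ x) (fun x _ => normHom_augOne hσ x) (deepUnits Λ.good 0)
    (deepUnits_le_unitGroup Λ.good) (relIndex_deepUnits_ne_zero Λ.good 0) ?_ ?_ ?_ ?_
  · rintro _ ⟨x, -, rfl⟩
    exact augOne_mem_unitGroup x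
  · rintro _ ⟨x, hx, rfl⟩
    exact Subgroup.prod_mem _ fun h _ => (smul_mem_unitGroup_iff _ x).mpr hx
  · rintro _ ⟨x, hx, rfl⟩
    exact div_mem (Λ.smul_mem_deepUnits hx) hx
  · rintro _ ⟨x, hx, rfl⟩
    exact Λ.normHom_mem_deepUnits H hx
  · rintro x ⟨hx, hfix⟩
    rw [← fixedUnits_eq_ker hσ] at hfix
    obtain ⟨y, hy, hyx⟩ := Λ.exists_normHom_eq H hx hfix
    exact ⟨y, hy, hyx⟩
  · rintro x ⟨hx, hN⟩
    obtain ⟨f, hf, rfl⟩ := Λ.exists_augHom_eq H hx (MonoidHom.mem_ker.mp hN)
    exact Subgroup.prod_mem _ fun h _ =>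
      smul_div_mem_map_augOne hσ _ (fun _ hy => Λ.smul_mem_deepUnits hy) h (hf h)

theorem ord_normHom [Fintype H] (x : Eˣ) :
    ord E (NormalLattice.normHom H x) = ord E x ^ Fintype.card H := by
  show ord E (∏ h : H, (h : E ≃ₐ[ℚ_[q]] E) • x) = _
  simp only [map_prod, ord_smul_unit, Finset.prod_const, Finset.card_univ]

/-- The local norm index of a cyclic group. -/
theorem relIndex_normHom_range [Normal ℚ_[q] E] [Fintype H] (hσ : Subgroup.zpowers σ = H) :
    (NormalLattice.normHom H).range.relIndex (fixedUnits H) = Fintype.card H := by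
  set N := NormalLattice.normHom (E := E) H with hN
  have hRC : N.range ≤ fixedUnits H := by
    rintro _ ⟨x, rfl⟩ h
    exact NormalLattice.smul_normHom H h x
  have hker : (ord E).ker = unitGroup E := by
    ext x
    rw [MonoidHom.mem_ker, ord_eq_one_iff]
  have hcard : 0 < Fintype.card H := Fintype.card_pos
  rw [relIndex_eq_map_mul (ord E) hRC, hker]
  have hRU : N.range ⊓ unitGroup E = (unitGroup E).map N := by
    refine le_antisymm ?_ ?_
    · rintro _ ⟨⟨y, rfl⟩, hy⟩
      refine ⟨y, ?_, rfl⟩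
      replace hy : N y ∈ unitGroup E := hy
      rw [← ord_eq_one_iff, ord_normHom] at hy
      exact (ord_eq_one_iff E).mp ((pow_eq_one_iff_left hcard.ne').mp hy)
    · rintro _ ⟨y, hy, rfl⟩
      exact ⟨⟨y, rfl⟩, Subgroup.prod_mem _ fun h _ => (smul_mem_unitGroup_iff _ y).mpr hy⟩
  rw [hRU, inf_comm (fixedUnits H), (unit_herbrand hσ).1]
  have hkN : unitGroup E ⊓ N.ker = (augOne σ).range := by
    refine le_antisymm ?_ ?_
    · rintro x ⟨-, hx⟩
      obtain ⟨y, rfl⟩ := exists_augOne_eq hσ (MonoidHom.mem_ker.mp hx)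
      exact ⟨y, rfl⟩
    · rintro _ ⟨y, rfl⟩
      exact ⟨augOne_mem_unitGroup y, normHom_augOne hσ y⟩
  rw [hkN, MonoidHom.range_eq_map (augOne σ),
    Subgroup.relIndex_map_map (augOne σ) (unitGroup E) ⊤,
    top_sup_eq, Subgroup.relIndex_top_right, ← fixedUnits_eq_ker hσ]
  set M := (fixedUnits H).map (ord E) with hM
  have hMidx : M.index = (unitGroup E ⊔ fixedUnits H).index := by
    rw [hM, Subgroup.index_map, hker, MonoidHom.range_eq_top.mpr (ord_surjective E),
      Subgroup.index_top, mul_one, sup_comm]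
  rw [← hMidx]
  have hRM : N.range.map (ord E) ≤ M := Subgroup.map_mono hRC
  rw [Subgroup.relIndex_mul_index hRM]
  have hR : N.range.map (ord E) = (powMonoidHom (Fintype.card H) : Multiplicative ℤ →* _).range := by
    ext t
    constructor
    · rintro ⟨_, ⟨y, rfl⟩, rfl⟩
      exact ⟨ord E y, (ord_normHom y).symm⟩
    · rintro ⟨u, rfl⟩
      obtain ⟨y, rfl⟩ := ord_surjective E u
      exact ⟨N y, ⟨y, rfl⟩, ord_normHom y⟩
  rw [hR, index_range_powMonoidHom_multiplicative_int]
where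
  index_range_powMonoidHom_multiplicative_int {n : ℕ} :
      (powMonoidHom n : Multiplicative ℤ →* Multiplicative ℤ).range.index = n := by
    have : (powMonoidHom n : Multiplicative ℤ →* Multiplicative ℤ).range =
        (AddSubgroup.zmultiples (n : ℤ)).toSubgroup := by
      ext t
      constructor
      · rintro ⟨u, rfl⟩
        show Multiplicative.toAdd (u ^ n) ∈ AddSubgroup.zmultiples (n : ℤ)
        rw [toAdd_pow, nsmul_eq_mul]
        exact ⟨Multiplicative.toAdd u, by simp [mul_comm]⟩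
      · intro h
        obtain ⟨k, hk⟩ : Multiplicative.toAdd t ∈ AddSubgroup.zmultiples (n : ℤ) := h
        refine ⟨Multiplicative.ofAdd k, ?_⟩
        apply Multiplicative.toAdd.injective
        rw [powMonoidHom_apply, toAdd_pow, toAdd_ofAdd, ← hk]
        simp [mul_comm]
    rw [this, AddSubgroup.index_toSubgroup, Int.index_zmultiples, Int.natAbs_natCast]

end Cyclic

end Fermat.Agent.CFT.Local
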