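import Fermat.Agent.CFT.Local.Fixed

/-!
# Unramified extensions: units and norms
-/

set_option autoImplicit false
set_option synthInstance.maxHeartbeats 200000
set_option linter.style.haveILetI false

noncomputable section

namespace Fermat.Agent.CFT.Local

open groupCohomology

variable {q : ℕ} [Fact q.Prime] {E : IntermediateField ℚ_[q] (PadicAlgCl q)}
  [FiniteDimensional ℚ_[q] E]

/-- The Galois action on the unit group. -/
instance galUnitGroupAction : DistribMulAction (E ≃ₐ[ℚ_[q]] E) (Additive (unitGroup E)) where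
  smul σ a := Additive.ofMul
    ⟨σ • (a.toMul : Eˣ), (smul_mem_unitGroup_iff σ (a.toMul : Eˣ)).mpr a.toMul.2⟩
  one_smul a := congrArg Additive.ofMul (Subtype.ext (one_smul _ (a.toMul : Eˣ)))
  mul_smul σ τ a := congrArg Additive.ofMul (Subtype.ext (mul_smul σ τ (a.toMul : Eˣ)))
  smul_zero σ := congrArg Additive.ofMul (Subtype.ext (smul_one σ))
  smul_add σ a b := congrArg Additive.ofMul
    (Subtype.ext (smul_mul' σ (a.toMul : Eˣ) (b.toMul : Eˣ)))

theorem normSum_unitGroup_coe (H : Subgroup (E ≃ₐ[ℚ_[q]] E)) [Fintype H]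
    (a : Additive (unitGroup E)) :
    (((normSum H (Additive (unitGroup E)) a).toMul : unitGroup E) : Eˣ) =
      NormalLattice.normHom H (a.toMul : Eˣ) := by
  rw [normSum, toMul_sum, Subgroup.val_finsetProd]
  rfl

omit [FiniteDimensional ℚ_[q] E] in
theorem exists_zpowers_eq (H : Subgroup (E ≃ₐ[ℚ_[q]] E)) [IsCyclic H] :
    ∃ σ, Subgroup.zpowers σ = H := by
  obtain ⟨g, hg⟩ := IsCyclic.exists_generator (α := H)
  refine ⟨g.1, ?_⟩
  rw [show (g.1 : E ≃ₐ[ℚ_[q]] E) = H.subtype g from rfl, ← MonoidHom.map_zpowers,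
    (Subgroup.eq_top_iff' _).mpr hg, ← MonoidHom.range_eq_map, Subgroup.range_subtype]

theorem ordZ_normHom (H : Subgroup (E ≃ₐ[ℚ_[q]] E)) [Fintype H] (x : Eˣ) :
    ordZ E (NormalLattice.normHom H x) = Fintype.card H * ordZ E x := by
  rw [ordZ, ord_normHom, toAdd_pow, nsmul_eq_mul]; rfl

section Unramified

variable (H : Subgroup (E ≃ₐ[ℚ_[q]] E)) (hH : H ⊓ inertia E = ⊥)

include hH in
/-- Any element becomes a unit after division by a fixed element. -/
theorem exists_fixed_div_mem_unitGroup (y : Eˣ) :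
    ∃ z ∈ fixedUnits H, y / z ∈ unitGroup E := by
  obtain ⟨π, hπ, hπ1⟩ := exists_fixed_ord_eq_one H hH
  refine ⟨π ^ ordZ E y, zpow_mem hπ _, (ord_eq_one_iff E).mp ?_⟩
  rw [map_div, map_zpow, hπ1, ← ofAdd_zsmul, smul_eq_mul, mul_one, ordZ, ofAdd_toAdd, div_self']

variable [Normal ℚ_[q] E] [Fintype H]

include hH in
/-- The norms from an unramified extension. -/
theorem exists_normHom_eq_iff {x : Eˣ} (hx : x ∈ fixedUnits H) :
    (∃ y, NormalLattice.normHom H y = x) ↔ (Fintype.card H : ℤ) ∣ ordZ E x := by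
  haveI := isCyclic_of_inf_inertia_eq_bot H hH
  refine ⟨?_, fun hdvd => ?_⟩
  · rintro ⟨y, rfl⟩
    exact ⟨_, ordZ_normHom H y⟩
  obtain ⟨σ, hσ⟩ := exists_zpowers_eq H
  set N := NormalLattice.normHom (E := E) H
  set M := (powMonoidHom (Fintype.card H) : Multiplicative ℤ →* Multiplicative ℤ).range
  set X := fixedUnits H ⊓ M.comap (ord E)
  have hRX : N.range ≤ X := by
    rintro _ ⟨y, rfl⟩
    exact ⟨fun h => NormalLattice.smul_normHom H h y, ord E y, (ord_normHom y).symm⟩
  have hmap : (fixedUnits H).map (ord E) = ⊤ := by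
    obtain ⟨π, hπ, hπ1⟩ := exists_fixed_ord_eq_one H hH
    refine (Subgroup.eq_top_iff' _).mpr fun t => ⟨π ^ Multiplicative.toAdd t, zpow_mem hπ _, ?_⟩
    rw [map_zpow, hπ1, ← ofAdd_zsmul, smul_eq_mul, mul_one, ofAdd_toAdd]
  have h1 : X.relIndex (fixedUnits H) = Fintype.card H := by
    rw [Subgroup.inf_relIndex_left, Subgroup.relIndex_comap, hmap, Subgroup.relIndex_top_right,
      relIndex_normHom_range.index_range_powMonoidHom_multiplicative_int]
  have h2 := Subgroup.relIndex_mul_relIndex N.range X (fixedUnits H) hRX inf_le_left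
  rw [h1, relIndex_normHom_range hσ] at h2
  have h3 : N.range.relIndex X = 1 := (mul_eq_right₀ Fintype.card_ne_zero).mp h2
  obtain ⟨k, hk⟩ := hdvd
  have hxX : x ∈ X := ⟨hx, Multiplicative.ofAdd k, Multiplicative.toAdd.injective (by
    rw [powMonoidHom_apply, toAdd_pow, toAdd_ofAdd, nsmul_eq_mul]; exact hk.symm)⟩
  exact Subgroup.relIndex_eq_one.mp h3 hxX

include hH in
/-- Every invariant unit is the norm of a unit. -/
theorem normSurj_unitGroup : NormSurj H (Additive (unitGroup E)) := by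
  intro a ha
  have hfix : ((a.toMul : unitGroup E) : Eˣ) ∈ fixedUnits H := fun h =>
    congrArg (fun b : Additive (unitGroup E) => ((b.toMul : unitGroup E) : Eˣ)) (ha h)
  have h0 : ordZ E ((a.toMul : unitGroup E) : Eˣ) = 0 := by
    rw [ordZ, (ord_eq_one_iff E).mpr a.toMul.2, toAdd_one]
  obtain ⟨y, hy⟩ := (exists_normHom_eq_iff H hH hfix).mpr (h0 ▸ dvd_zero _)
  have hyU : y ∈ unitGroup E := by
    rw [← ord_eq_one_iff]
    apply Multiplicative.toAdd.injective
    have := ordZ_normHom H y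
    rw [hy, h0] at this
    exact (mul_eq_zero.mp this.symm).resolve_left (Nat.cast_ne_zero.mpr Fintype.card_ne_zero)
  refine ⟨Additive.ofMul ⟨y, hyU⟩, Additive.toMul.injective (Subtype.ext ?_)⟩
  rw [normSum_unitGroup_coe]
  exact hy

include hH in
omit [Normal ℚ_[q] E] [Fintype H] in
/-- Every cocycle in the units is a coboundary. -/
theorem h1Zero_unitGroup : H1Zero H (Additive (unitGroup E)) := by
  intro c hc
  obtain ⟨β, hβ⟩ := h1Zero_units H (fun h => Additive.ofMul ((c h).toMul : Eˣ)) fun g h => by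
    show Additive.ofMul ((c (g * h)).toMul : Eˣ) = _
    rw [hc g h]
    rfl
  obtain ⟨z, hz, hu⟩ := exists_fixed_div_mem_unitGroup H hH β.toMul
  refine ⟨Additive.ofMul ⟨β.toMul / z, hu⟩, fun g => Additive.toMul.injective (Subtype.ext ?_)⟩
  have h1 := congrArg Additive.toMul (hβ g)
  rw [toMul_sub, toMul_ofMul] at h1
  show (g : E ≃ₐ[ℚ_[q]] E) • (β.toMul / z) / (β.toMul / z) = _
  rw [smul_div', show (g : E ≃ₐ[ℚ_[q]] E) • z = z from hz g, div_div_div_cancel_right]
  exact h1

end Unramified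

end Fermat.Agent.CFT.Local
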