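import Fermat.Agent.Arith.InertiaLift
import Fermat.Agent.CFT.Local.Residue
import Fermat.Prelude.Def_GaloisRep_CompletionBridge

/-!
# From global to local

`localField q L = ℚ_[q](padicEmbedding q '' L)`, its Galois group as the stabiliser of the place,
and inertia.
-/

set_option autoImplicit false
set_option synthInstance.maxHeartbeats 200000
set_option linter.style.haveILetI false

noncomputable section

namespace Fermat.Agent.CFT.Local

open Fermat.Agent.Arith

variable (q : ℕ) [Fact q.Prime] (L : IntermediateField ℚ QBar)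

/-- The completion of `L` at `padicPlace q`, inside `PadicAlgCl q`. -/
def localField : IntermediateField ℚ_[q] (PadicAlgCl q) :=
  IntermediateField.adjoin ℚ_[q] (padicEmbedding q '' (L : Set QBar))

theorem padicEmbedding_mem_localField (x : L) : padicEmbedding q (x : QBar) ∈ localField q L :=
  IntermediateField.subset_adjoin _ _ ⟨x, x.2, rfl⟩

theorem localField_mono {L L' : IntermediateField ℚ QBar} (h : L ≤ L') :
    localField q L ≤ localField q L' :=
  IntermediateField.adjoin.mono _ _ _ (Set.image_mono h)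

/-- The embedding of `L` in its completion. -/
def localEmb : L →+* localField q L :=
  ((padicEmbedding q).toRingHom.comp L.toSubfield.subtype).codRestrict (localField q L).toSubfield
    fun x => padicEmbedding_mem_localField q L x

@[simp]
theorem coe_localEmb (x : L) :
    ((localEmb q L x : localField q L) : PadicAlgCl q) = padicEmbedding q (x : QBar) := rfl

theorem norm_localEmb (x : L) : ‖localEmb q L x‖ = ‖padicEmbedding q (x : QBar)‖ := rfl

instance localField_finite [FiniteDimensional ℚ L] :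
    FiniteDimensional ℚ_[q] (localField q L) := by
  classical
  let b := Module.finBasis ℚ L
  set S : Set (PadicAlgCl q) := Set.range fun i => padicEmbedding q (b i : QBar) with hS
  haveI : Finite S := (Set.finite_range _).to_subtype
  haveI := IntermediateField.finiteDimensional_adjoin (K := ℚ_[q]) (S := S)
    fun x _ => Algebra.IsIntegral.isIntegral x
  suffices h : localField q L = IntermediateField.adjoin ℚ_[q] S by
    rw [h]; infer_instance
  refine le_antisymm (IntermediateField.adjoin_le_iff.mpr ?_) (IntermediateField.adjoin_le_iff.mpr ?_)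
  · rintro _ ⟨x, hx, rfl⟩
    have hsum := congrArg (fun y : L => padicEmbedding q (y : QBar)) (b.sum_repr ⟨x, hx⟩)
    simp only [IntermediateField.coe_sum, IntermediateField.coe_smul, map_sum] at hsum
    rw [← hsum]
    refine sum_mem fun i _ => ?_
    rw [Algebra.smul_def, map_mul, AlgHom.commutes]
    refine mul_mem ?_ (IntermediateField.subset_adjoin _ _ ⟨i, rfl⟩)
    rw [eq_ratCast]
    exact SubfieldClass.ratCast_mem _ _
  · rintro _ ⟨i, rfl⟩
    exact padicEmbedding_mem_localField q L (b i)

/-- An automorphism fixing the image of `L` fixes the completion. -/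
theorem fixes_localField {τ : PadicAlgCl q ≃ₐ[ℚ_[q]] PadicAlgCl q}
    (h : ∀ x : L, τ (padicEmbedding q (x : QBar)) = padicEmbedding q (x : QBar))
    {y : PadicAlgCl q} (hy : y ∈ localField q L) : τ y = y := by
  have : localField q L ≤ IntermediateField.fixedField (Subgroup.zpowers τ) := by
    refine IntermediateField.adjoin_le_iff.mpr ?_
    rintro _ ⟨x, hx, rfl⟩
    rw [SetLike.mem_coe, IntermediateField.mem_fixedField_iff]
    intro g hg
    have hle : Subgroup.zpowers τ ≤ MulAction.stabilizer (PadicAlgCl q ≃ₐ[ℚ_[q]] PadicAlgCl q)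
        (padicEmbedding q x) := Subgroup.zpowers_le.mpr (h ⟨x, hx⟩)
    exact hle hg
  exact (IntermediateField.mem_fixedField_iff _ y).mp (this hy) τ (Subgroup.mem_zpowers τ)

variable [Normal ℚ L]

theorem algEquiv_padicEmbedding_mem (τ : PadicAlgCl q ≃ₐ[ℚ_[q]] PadicAlgCl q) (x : L) :
    τ (padicEmbedding q (x : QBar)) =
      padicEmbedding q ((AlgEquiv.restrictNormalHom L (localGaloisToGlobal q τ) x : L) : QBar) := by
  rw [← padicEmbedding_localGaloisToGlobal]
  congr 1
  exact (AlgEquiv.restrictNormal_commutes (localGaloisToGlobal q τ) L x).symm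

variable [FiniteDimensional ℚ L]

instance localField_normal : Normal ℚ_[q] (localField q L) := by
  refine IntermediateField.normal_iff_forall_map_le'.mpr fun τ => ?_
  rw [localField, IntermediateField.adjoin_map]
  refine IntermediateField.adjoin_le_iff.mpr ?_
  rintro _ ⟨_, ⟨x, hx, rfl⟩, rfl⟩
  show τ (padicEmbedding q x) ∈ IntermediateField.adjoin ℚ_[q] _
  rw [algEquiv_padicEmbedding_mem q L τ ⟨x, hx⟩]
  exact padicEmbedding_mem_localField q L _

/-- Restriction from the completion to `L`. -/
def toGlobalFun (σ : localField q L ≃ₐ[ℚ_[q]] localField q L) : L ≃ₐ[ℚ] L :=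
  AlgEquiv.restrictNormalHom L (localGaloisToGlobal q (σ.liftNormal (PadicAlgCl q)))

omit [FiniteDimensional ℚ L] in
theorem localEmb_toGlobalFun (σ : localField q L ≃ₐ[ℚ_[q]] localField q L) (x : L) :
    localEmb q L (toGlobalFun q L σ x) = σ (localEmb q L x) := by
  refine Subtype.ext ?_
  rw [coe_localEmb, toGlobalFun, ← algEquiv_padicEmbedding_mem q L]
  exact AlgEquiv.liftNormal_commutes σ (PadicAlgCl q) (localEmb q L x)

/-- Restriction from the completion to `L`, as a homomorphism. -/
def toGlobal : (localField q L ≃ₐ[ℚ_[q]] localField q L) →* (L ≃ₐ[ℚ] L) :=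
  MonoidHom.mk' (toGlobalFun q L) fun σ τ => AlgEquiv.ext fun x => (localEmb q L).injective (by
    rw [localEmb_toGlobalFun, AlgEquiv.mul_apply, AlgEquiv.mul_apply, ← localEmb_toGlobalFun,
      ← localEmb_toGlobalFun])

omit [FiniteDimensional ℚ L] in
/-- The defining property of `toGlobal`. -/
theorem localEmb_toGlobal (σ : localField q L ≃ₐ[ℚ_[q]] localField q L) (x : L) :
    localEmb q L (toGlobal q L σ x) = σ (localEmb q L x) := localEmb_toGlobalFun q L σ x

omit [FiniteDimensional ℚ L] in
theorem padicEmbedding_toGlobal (σ : localField q L ≃ₐ[ℚ_[q]] localField q L) (x : L) :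
    padicEmbedding q ((toGlobal q L σ x : L) : QBar) =
      ((σ (localEmb q L x) : localField q L) : PadicAlgCl q) :=
  congrArg Subtype.val (localEmb_toGlobal q L σ x)

omit [FiniteDimensional ℚ L] in
/-- `toGlobal` is the restriction of `localGaloisToGlobal`. -/
theorem toGlobal_restrict (τ : PadicAlgCl q ≃ₐ[ℚ_[q]] PadicAlgCl q) :
    toGlobal q L (AlgEquiv.restrictNormalHom (localField q L) τ) =
      AlgEquiv.restrictNormalHom L (localGaloisToGlobal q τ) := by
  refine AlgEquiv.ext fun x => (localEmb q L).injective (Subtype.ext ?_)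
  rw [localEmb_toGlobal, coe_localEmb, ← algEquiv_padicEmbedding_mem q L]
  exact AlgEquiv.restrictNormal_commutes τ (localField q L) (localEmb q L x)

omit [FiniteDimensional ℚ L] in
theorem toGlobal_injective : Function.Injective (toGlobal q L) := by
  refine (injective_iff_map_eq_one _).mpr fun σ hσ => AlgEquiv.ext fun y => Subtype.ext ?_
  have hc := AlgEquiv.liftNormal_commutes σ (PadicAlgCl q) y
  rw [show algebraMap (localField q L) (PadicAlgCl q) y = (y : PadicAlgCl q) from rfl] at hc
  rw [AlgEquiv.one_apply, ← show σ.liftNormal (PadicAlgCl q) (y : PadicAlgCl q) =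
    ((σ y : localField q L) : PadicAlgCl q) from hc]
  refine fixes_localField q L (fun x => ?_) y.2
  rw [algEquiv_padicEmbedding_mem q L]
  congr 1
  exact congrArg Subtype.val (DFunLike.congr_fun hσ x)

theorem mem_padicPlace_iff_norm {x : QBar} : x ∈ padicPlace q ↔ ‖padicEmbedding q x‖ ≤ 1 := by
  rw [mem_padicPlace_iff, ← NNReal.coe_le_coe, coe_nnnorm, NNReal.coe_one]

theorem mem_nonunits_padicPlace_iff {x : QBar} :
    x ∈ (padicPlace q).nonunits ↔ ‖padicEmbedding q x‖ < 1 := by
  rw [ValuationSubring.mem_nonunits_iff_or, mem_padicPlace_iff_norm, map_inv₀, norm_inv]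
  rcases eq_or_ne x 0 with rfl | hx
  · simp
  have h0 : 0 < ‖padicEmbedding q x‖ := norm_pos_iff.mpr ((map_ne_zero _).mpr hx)
  rw [or_iff_right hx, inv_le_one₀ h0, not_le]

theorem padicPlace_liesOverPrime : (padicPlace q).LiesOverPrime q := by
  show (q : QBar) ∈ (padicPlace q).nonunits
  rw [mem_nonunits_padicPlace_iff, map_natCast, ← map_natCast (algebraMap ℚ_[q] (PadicAlgCl q)) q,
    norm_algebraMap']
  exact Padic.norm_p_lt_one

omit [Normal ℚ L] [FiniteDimensional ℚ L] in
theorem localEmb_dense (y : localField q L) {ε : ℝ} (hε : 0 < ε) :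
    ∃ x : L, ‖y - localEmb q L x‖ < ε := by
  set S : Subring (PadicAlgCl q) :=
    ((padicEmbedding q).toRingHom.comp L.toSubfield.subtype).range.topologicalClosure with hS
  have hQ : ∀ a : ℚ_[q], algebraMap ℚ_[q] (PadicAlgCl q) a ∈ S := by
    intro a
    refine Metric.mem_closure_iff.mpr fun δ hδ => ?_
    obtain ⟨r, hr⟩ := Padic.rat_dense q a hδ
    refine ⟨_, ⟨(r : L), rfl⟩, ?_⟩
    rw [map_ratCast, ← map_ratCast (algebraMap ℚ_[q] (PadicAlgCl q)) r, dist_eq_norm, ← map_sub,
      norm_algebraMap']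
    exact hr
  have hle : (IntermediateField.adjoin ℚ_[q] (padicEmbedding q '' (L : Set QBar))).toSubalgebra.toSubring
      ≤ S := by
    rw [IntermediateField.adjoin_toSubalgebra_of_isAlgebraic
      fun x _ => Algebra.IsAlgebraic.isAlgebraic x]
    exact Algebra.adjoin_le (S := { S with algebraMap_mem' := hQ }) (by
      rintro _ ⟨x, hx, rfl⟩
      exact Subring.le_topologicalClosure _ ⟨⟨x, hx⟩, rfl⟩)
  obtain ⟨_, ⟨x, rfl⟩, hx⟩ := Metric.mem_closure_iff.mp (hle y.2) ε hε
  exact ⟨x, by rw [dist_eq_norm] at hx; exact hx⟩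

/-- The range of `toGlobal` is the stabiliser of the place. -/
theorem mem_range_toGlobal_iff (g : L ≃ₐ[ℚ] L) :
    g ∈ (toGlobal q L).range ↔
      ∀ x : L, (x : QBar) ∈ padicPlace q → ((g x : L) : QBar) ∈ padicPlace q := by
  constructor
  · rintro ⟨σ, rfl⟩ x hx
    rw [mem_padicPlace_iff_norm] at hx ⊢
    rw [padicEmbedding_toGlobal]
    show ‖σ (localEmb q L x)‖ ≤ 1
    rw [norm_algEquiv]
    exact hx
  intro hg
  haveI : IsGalois ℚ_[q] (localField q L) := ⟨⟩
  haveI : IsGalois ℚ L := ⟨⟩
  rw [← IntermediateField.fixingSubgroup_fixedField (toGlobal q L).range,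
    IntermediateField.mem_fixingSubgroup_iff]
  intro x hx
  rw [IntermediateField.mem_fixedField_iff] at hx
  -- `ι x` is a `q`-adic number
  obtain ⟨a, ha⟩ := (IsGalois.mem_range_algebraMap_iff_fixed (F := ℚ_[q])
    (localEmb q L x)).mpr fun σ => by
      rw [← localEmb_toGlobal, hx _ ⟨σ, rfl⟩]
  have ha' : algebraMap ℚ_[q] (PadicAlgCl q) a = padicEmbedding q (x : QBar) :=
    congrArg Subtype.val ha
  refine Subtype.ext ((padicEmbedding q).injective (eq_of_sub_eq_zero (norm_eq_zero.mp ?_)))
  refine le_antisymm (le_of_forall_pos_le_add fun ε hε => ?_) (norm_nonneg _)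
  show ‖padicEmbedding q ((g x : L) : QBar) - padicEmbedding q (x : QBar)‖ ≤ _
  obtain ⟨k, hk⟩ := exists_pow_lt_of_lt_one hε
    (show ‖(q : ℚ_[q])‖ < 1 from Padic.norm_p_lt_one)
  have hq0 : (0 : ℝ) < ‖(q : ℚ_[q])‖ ^ k :=
    pow_pos (norm_pos_iff.mpr (Nat.cast_ne_zero.mpr (Fact.out : q.Prime).ne_zero)) k
  obtain ⟨r, hr⟩ := Padic.rat_dense q a hq0
  have hr' : ‖padicEmbedding q (x : QBar) - (r : PadicAlgCl q)‖ < ‖(q : ℚ_[q])‖ ^ k := by
    rw [← ha', ← map_ratCast (algebraMap ℚ_[q] (PadicAlgCl q)) r, ← map_sub, norm_algebraMap']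
    exact hr
  have hnq : ‖((q : PadicAlgCl q)) ^ k‖ = ‖(q : ℚ_[q])‖ ^ k := by
    rw [norm_pow, ← map_natCast (algebraMap ℚ_[q] (PadicAlgCl q)) q, norm_algebraMap']
  have hball : ∀ y : L, ‖padicEmbedding q (y : QBar)‖ ≤ 1 →
      ‖padicEmbedding q ((g y : L) : QBar)‖ ≤ 1 := fun y hy =>
    (mem_padicPlace_iff_norm q).mp (hg y ((mem_padicPlace_iff_norm q).mpr hy))
  have hcast : ∀ y : L, padicEmbedding q (((y - (r : L)) / (q : L) ^ k : L) : QBar) =
      (padicEmbedding q (y : QBar) - (r : PadicAlgCl q)) / (q : PadicAlgCl q) ^ k := fun y => by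
    simp [map_div₀]
  have h1 := hball ((x - (r : L)) / (q : L) ^ k) (by
    rw [hcast, norm_div, hnq, div_le_one hq0]; exact hr'.le)
  rw [show g ((x - (r : L)) / (q : L) ^ k) = (g x - (r : L)) / (q : L) ^ k by
      rw [map_div₀, map_sub, map_pow, map_ratCast, map_natCast],
    hcast, norm_div, hnq, div_le_one hq0] at h1
  rw [zero_add, show padicEmbedding q ((g x : L) : QBar) - padicEmbedding q (x : QBar) =
    (padicEmbedding q ((g x : L) : QBar) - (r : PadicAlgCl q)) -
      (padicEmbedding q (x : QBar) - (r : PadicAlgCl q)) by ring]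
  rw [sub_eq_add_neg (padicEmbedding q ((g x : L) : QBar) - (r : PadicAlgCl q))]
  refine (IsUltrametricDist.norm_add_le_max _ _).trans (max_le (h1.trans hk.le) ?_)
  rw [norm_neg]
  exact hr'.le.trans hk.le

/-- Inertia of the completion maps to inertia at the place. -/
theorem exists_inertia_of_mem_inertia {σ : localField q L ≃ₐ[ℚ_[q]] localField q L}
    (hσ : σ ∈ inertia (localField q L)) :
    ∃ g ∈ (padicPlace q).inertiaSubgroupIn ℚ,
      AlgEquiv.restrictNormalHom L g = toGlobal q L σ := by
  haveI : IsGalois ℚ L := ⟨⟩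
  haveI : L.fixingSubgroup.Normal := (InfiniteGalois.normal_iff_isGalois L).mpr ‹_›
  obtain ⟨g₀, hg₀⟩ := AlgEquiv.restrictNormalHom_surjective (K₁ := L) QBar (toGlobal q L σ)
  obtain ⟨h, hh, hhg⟩ := exists_inertia_lift (padicPlace_liesOverPrime q) Fact.out L.fixingSubgroup
    L.fixingSubgroup_isClosed g₀ fun x hx hfix => by
      have hxL : x ∈ L := by
        rw [← InfiniteGalois.fixedField_fixingSubgroup L, IntermediateField.mem_fixedField_iff]
        exact hfix
      have hcomm : g₀ x = ((toGlobal q L σ ⟨x, hxL⟩ : L) : QBar) := by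
        rw [← hg₀]
        exact (AlgEquiv.restrictNormal_commutes g₀ L ⟨x, hxL⟩).symm
      rw [mem_nonunits_padicPlace_iff, map_sub, hcomm, padicEmbedding_toGlobal]
      exact mem_inertia.mp hσ (localEmb q L ⟨x, hxL⟩)
        ((mem_padicPlace_iff_norm q).mp (mem_of_isIntegral _ hx))
  refine ⟨h * g₀, hhg, ?_⟩
  rw [map_mul, hg₀, show AlgEquiv.restrictNormalHom L h = 1 from ?_, one_mul]
  refine AlgEquiv.ext fun x => Subtype.ext ?_
  rw [AlgEquiv.one_apply]
  exact (AlgEquiv.restrictNormal_commutes h L x).trans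
    ((IntermediateField.mem_fixingSubgroup_iff _ _).mp hh x x.2)

/-- Inertia at the place comes from inertia of the completion. -/
theorem exists_mem_inertia_of_inertia {g : GQ} (hg : g ∈ (padicPlace q).inertiaSubgroupIn ℚ) :
    ∃ σ ∈ inertia (localField q L), toGlobal q L σ = AlgEquiv.restrictNormalHom L g := by
  obtain ⟨hgA, hgi⟩ := mem_inertia_iff_forall_mem.mp hg
  have hcomm : ∀ x : L, ((AlgEquiv.restrictNormalHom L g x : L) : QBar) = g (x : QBar) :=
    fun x => AlgEquiv.restrictNormal_commutes g L x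
  obtain ⟨σ, hσ⟩ := (mem_range_toGlobal_iff q L (AlgEquiv.restrictNormalHom L g)).mpr fun x hx => by
    rw [hcomm]; exact map_mem_of_mem_decomposition hgA hx
  refine ⟨σ, mem_inertia.mpr fun y hy => ?_, hσ⟩
  obtain ⟨x, hx⟩ := localEmb_dense q L y one_pos
  have hx1 : ‖localEmb q L x‖ ≤ 1 := by
    rw [show localEmb q L x = y + -(y - localEmb q L x) by ring]
    refine (IsUltrametricDist.norm_add_le_max _ _).trans (max_le hy ?_)
    rw [norm_neg]; exact hx.le
  have h1 : ‖σ (localEmb q L x) - localEmb q L x‖ < 1 := by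
    have h := (mem_nonunits_padicPlace_iff q).mp (hgi x ((mem_padicPlace_iff_norm q).mpr hx1))
    rw [← hcomm, map_sub, ← hσ, padicEmbedding_toGlobal] at h
    exact h
  rw [show σ y - y = σ (y - localEmb q L x) + (σ (localEmb q L x) - localEmb q L x) +
    -(y - localEmb q L x) by rw [map_sub]; ring]
  refine (IsUltrametricDist.norm_add_le_max _ _).trans_lt (max_lt
    ((IsUltrametricDist.norm_add_le_max _ _).trans_lt (max_lt ?_ h1)) ?_)
  · rw [norm_algEquiv]; exact hx
  · rw [norm_neg]; exact hx

/-- The completion is unramified iff inertia at the place acts trivially on `L`. -/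
theorem inertia_eq_bot_iff :
    inertia (localField q L) = ⊥ ↔
      ∀ g ∈ (padicPlace q).inertiaSubgroupIn ℚ, ∀ x : L, g (x : QBar) = (x : QBar) := by
  constructor
  · intro h g hg x
    obtain ⟨σ, hσ, hσg⟩ := exists_mem_inertia_of_inertia q L hg
    rw [h, Subgroup.mem_bot] at hσ
    rw [hσ, map_one] at hσg
    exact (AlgEquiv.restrictNormal_commutes g L x).symm.trans
      (congrArg Subtype.val (DFunLike.congr_fun hσg.symm x))
  · intro h
    refine eq_bot_iff.mpr fun σ hσ => ?_
    obtain ⟨g, hg, hgσ⟩ := exists_inertia_of_mem_inertia q L hσ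
    rw [Subgroup.mem_bot]
    refine toGlobal_injective q L ?_
    rw [map_one, ← hgσ]
    exact AlgEquiv.ext fun x => Subtype.ext
      ((AlgEquiv.restrictNormal_commutes g L x).trans (h g hg x))

end Fermat.Agent.CFT.Local
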