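import Fermat.Agent.CFT.Coh.Basic
import Fermat.Agent.CFT.Local.Field

/-!
# The Galois module `Additive Eˣ` and Hilbert 90 for subgroups
-/

set_option autoImplicit false
set_option synthInstance.maxHeartbeats 200000

noncomputable section

namespace Fermat.Agent.CFT.Local

open groupCohomology

section Action

variable {k L : Type*} [Field k] [Field L] [Algebra k L]

/-- Shortcut instance. -/
instance galUnitsMulAction : MulDistribMulAction (L ≃ₐ[k] L) Lˣ := inferInstance

/-- The Galois action on the units of a field, additively written. -/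
instance galUnitsAction : DistribMulAction (L ≃ₐ[k] L) (Additive Lˣ) where
  smul σ a := Additive.ofMul (σ • a.toMul)
  one_smul a := congrArg Additive.ofMul (one_smul (L ≃ₐ[k] L) a.toMul)
  mul_smul σ τ a := congrArg Additive.ofMul (mul_smul σ τ a.toMul)
  smul_zero σ := congrArg Additive.ofMul (smul_one σ)
  smul_add σ a b := congrArg Additive.ofMul (smul_mul' σ a.toMul b.toMul)

/-- Hilbert 90 for a finite group of automorphisms. -/
theorem h1Zero_units (H : Subgroup (L ≃ₐ[k] L)) [Finite H] : H1Zero H (Additive Lˣ) := by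
  classical
  cases nonempty_fintype H
  intro c hc
  set f : H → L := fun h => (((c h).toMul : Lˣ) : L) with hf
  obtain ⟨z, hz⟩ : ∃ z : L, ∑ h : H, f h * (h : L ≃ₐ[k] L) z ≠ 0 := by
    by_contra hall
    simp only [not_exists, not_not] at hall
    have hli := (linearIndependent_monoidHom L L).comp
      (fun h : H => ((h : L ≃ₐ[k] L).toAlgHom.toRingHom.toMonoidHom))
      (fun h h' e => Subtype.ext (AlgEquiv.ext fun x => DFunLike.congr_fun e x))
    have := Fintype.linearIndependent_iff.mp hli f (by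
      funext z
      simpa [Finset.sum_apply] using hall z) 1
    exact (c 1).toMul.ne_zero this
  set β := ∑ h : H, f h * (h : L ≃ₐ[k] L) z with hβ
  refine ⟨-Additive.ofMul (Units.mk0 β hz), fun g => ?_⟩
  apply Additive.toMul.injective
  rw [smul_neg, neg_sub_neg, toMul_sub]
  refine Units.ext ?_
  rw [Units.val_div_eq_div_val]
  show β / (g : L ≃ₐ[k] L) β = f g
  have hσ : f g * (g : L ≃ₐ[k] L) β = β := by
    rw [hβ, map_sum, Finset.mul_sum]
    refine Fintype.sum_equiv (Equiv.mulLeft g) _ _ fun h => ?_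
    rw [map_mul, ← mul_assoc]
    congr 1
    show f g * (g : L ≃ₐ[k] L) (f h) = f (g * h)
    simp only [hf, hc g h, toMul_add, Units.val_mul]
    rw [mul_comm]
    rfl
  exact (div_eq_iff ((map_ne_zero (g : L ≃ₐ[k] L)).mpr hz)).mpr hσ.symm

end Action

variable {q : ℕ} [Fact q.Prime] {E : IntermediateField ℚ_[q] (PadicAlgCl q)}
  [FiniteDimensional ℚ_[q] E]

omit [FiniteDimensional ℚ_[q] ↥E] in
theorem norm_smul_unit (σ : E ≃ₐ[ℚ_[q]] E) (x : Eˣ) : ‖((σ • x : Eˣ) : E)‖ = ‖(x : E)‖ :=
  norm_algEquiv E σ x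

theorem smul_mem_unitGroup_iff (σ : E ≃ₐ[ℚ_[q]] E) (x : Eˣ) :
    σ • x ∈ unitGroup E ↔ x ∈ unitGroup E := by
  rw [mem_unitGroup, mem_unitGroup, norm_smul_unit]

theorem ord_smul_unit (σ : E ≃ₐ[ℚ_[q]] E) (x : Eˣ) : ord E (σ • x) = ord E x :=
  ord_algEquiv E σ x

end Fermat.Agent.CFT.Local
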